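import Mathlib

/-!
# PROGRAM G (S56), GW-Euler base case, node (MACKEY-0): the orbit count, abstract core

`Γ` a group acting on a set `X`, `k'` a field, `ψ : Γ →* k'ˣ` a character, `F` a base field
(`k'` an `F`-algebra).

* `IsGoodPt ψ x`    : `ψ` is trivial on the stabiliser of `x` (invariant under `x ↦ γ • x`);
* `goodOrbits X ψ`    : the set of orbits all of whose points are good;
* `eqvFun X ψ F`      : the `F`-space of `ψ`-equivariant functions `f : X → k'`,
                      `f (γ • x) = ψ γ * f x`;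
* `eqvFunEquiv X ψ F` : `eqvFun X ψ F ≃ₗ[F] (goodOrbits X ψ → k')` (evaluation at representatives);
* `finrank_eqvFun`  : `dim_F eqvFun = #goodOrbits · dim_F k'` (`X` finite, `k'` finite over `F`).
-/

set_option autoImplicit false

open Module

namespace Fermat.Agent.TW.Euler.Base.Mackey0

section Core

variable {Γ X k' : Type*} [Group Γ] [MulAction Γ X] [Field k'] (ψ : Γ →* k'ˣ)

/-- `ψ` is trivial on the stabiliser of `x`. -/
def IsGoodPt (x : X) : Prop := ∀ γ : Γ, γ • x = x → ψ γ = 1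

lemma isGoodPt_of_smul {γ₀ : Γ} {x : X} (h : IsGoodPt ψ (γ₀ • x)) : IsGoodPt ψ x := by
  intro γ hγ
  have h1 := h (γ₀ * γ * γ₀⁻¹) (by rw [mul_smul, mul_smul, inv_smul_smul, hγ])
  have e : ψ (γ₀ * γ * γ₀⁻¹) = ψ γ := by
    rw [map_mul, map_mul, map_inv, mul_comm, inv_mul_cancel_left]
  rwa [e] at h1

lemma isGoodPt_smul_iff (γ₀ : Γ) (x : X) : IsGoodPt ψ (γ₀ • x) ↔ IsGoodPt ψ x := by
  refine ⟨isGoodPt_of_smul ψ, fun h => ?_⟩
  have h' : IsGoodPt ψ (γ₀⁻¹ • (γ₀ • x)) := by rwa [inv_smul_smul]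
  exact isGoodPt_of_smul ψ h'

variable (X) in
/-- The orbits all of whose points have stabiliser in the kernel of `ψ`. -/
def goodOrbits : Set (MulAction.orbitRel.Quotient Γ X) :=
  {ω | ∀ x : X, (Quotient.mk'' x : MulAction.orbitRel.Quotient Γ X) = ω → IsGoodPt ψ x}

/-- Every point is a translate of the chosen representative of its orbit. -/
lemma exists_smul_out (x : X) :
    ∃ γ : Γ, γ • (Quotient.mk'' x : MulAction.orbitRel.Quotient Γ X).out = x := by
  have h : (Quotient.mk'' x : MulAction.orbitRel.Quotient Γ X).out ∈ MulAction.orbit Γ x :=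
    MulAction.orbitRel_apply.1 (Quotient.mk_out (s := MulAction.orbitRel Γ X) x)
  obtain ⟨γ, hγ⟩ := MulAction.mem_orbit_iff.1 h
  exact ⟨γ⁻¹, by rw [← hγ, inv_smul_smul]⟩

lemma mk_mem_goodOrbits_iff (x : X) :
    (Quotient.mk'' x : MulAction.orbitRel.Quotient Γ X) ∈ goodOrbits X ψ ↔ IsGoodPt ψ x := by
  refine ⟨fun h => h x rfl, fun h y hy => ?_⟩
  have hy' : y ∈ MulAction.orbit Γ x := MulAction.orbitRel_apply.1 (Quotient.exact hy)
  obtain ⟨γ, rfl⟩ := MulAction.mem_orbit_iff.1 hy'
  exact (isGoodPt_smul_iff ψ γ x).2 h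

lemma mem_goodOrbits_iff_out (ω : MulAction.orbitRel.Quotient Γ X) :
    ω ∈ goodOrbits X ψ ↔ IsGoodPt ψ ω.out := by
  conv_lhs => rw [← Quotient.out_eq' ω]
  exact mk_mem_goodOrbits_iff ψ ω.out

/-- A chosen element moving the representative of the orbit of `x` to `x`. -/
noncomputable def moveOf (x : X) : Γ := Classical.choose (exists_smul_out (Γ := Γ) x)

lemma moveOf_smul (x : X) :
    moveOf (Γ := Γ) x • (Quotient.mk'' x : MulAction.orbitRel.Quotient Γ X).out = x :=
  Classical.choose_spec (exists_smul_out (Γ := Γ) x)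

variable (F : Type*) [Field F] [Algebra F k']

variable (X) in
/-- The space of `ψ`-equivariant functions `X → k'`. -/
def eqvFun : Submodule F (X → k') where
  carrier := {f | ∀ (γ : Γ) (x : X), f (γ • x) = ((ψ γ : k'ˣ) : k') * f x}
  add_mem' := by
    intro f g hf hg γ x
    simp only [Pi.add_apply]
    rw [hf, hg, mul_add]
  zero_mem' := by
    intro γ x
    simp
  smul_mem' := by
    intro c f hf γ x
    simp only [Pi.smul_apply]
    rw [hf, mul_smul_comm]

variable {F}

lemma mem_eqvFun_iff (f : X → k') :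
    f ∈ eqvFun X ψ F ↔ ∀ (γ : Γ) (x : X), f (γ • x) = ((ψ γ : k'ˣ) : k') * f x := Iff.rfl

/-- An equivariant function vanishes at the points which are not good. -/
lemma eqvFun_apply_eq_zero {f : X → k'} (hf : f ∈ eqvFun X ψ F) {x : X} (hx : ¬ IsGoodPt ψ x) :
    f x = 0 := by
  obtain ⟨γ, hγ'⟩ := not_forall.1 hx
  obtain ⟨hγ, hne⟩ := Classical.not_imp.1 hγ'
  have h1 := hf γ x
  rw [hγ] at h1
  have h2 : (((ψ γ : k'ˣ) : k') - 1) * f x = 0 := by
    rw [sub_mul, one_mul, ← h1, sub_self]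
  rcases mul_eq_zero.1 h2 with h3 | h3
  · exact absurd (Units.ext (sub_eq_zero.1 h3)) hne
  · exact h3

variable (F)

variable (X) in
/-- Evaluation at the representatives of the good orbits. -/
noncomputable def evGood : ↥(eqvFun X ψ F) →ₗ[F] (↥(goodOrbits X ψ) → k') where
  toFun f ω := f.1 ω.1.out
  map_add' _ _ := rfl
  map_smul' _ _ := rfl

variable (X) in
open Classical in
/-- Extension by zero of a function on the good orbits. -/
noncomputable def extZero (a : ↥(goodOrbits X ψ) → k') (ω : MulAction.orbitRel.Quotient Γ X) : k' :=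
  if h : ω ∈ goodOrbits X ψ then a ⟨ω, h⟩ else 0

lemma extZero_of_mem (a : ↥(goodOrbits X ψ) → k') (ω : ↥(goodOrbits X ψ)) :
    extZero X ψ a ω.1 = a ω := by
  unfold extZero
  rw [dif_pos ω.2]

lemma extZero_of_not_mem (a : ↥(goodOrbits X ψ) → k') {ω : MulAction.orbitRel.Quotient Γ X}
    (h : ω ∉ goodOrbits X ψ) : extZero X ψ a ω = 0 := by
  unfold extZero
  rw [dif_neg h]

variable (X) in
/-- The equivariant function with prescribed values at the representatives of the good orbits. -/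
noncomputable def extFun (a : ↥(goodOrbits X ψ) → k') (x : X) : k' :=
  ((ψ (moveOf (Γ := Γ) x) : k'ˣ) : k') * extZero X ψ a (Quotient.mk'' x)

lemma mk_smul_eq (γ : Γ) (x : X) :
    (Quotient.mk'' (γ • x) : MulAction.orbitRel.Quotient Γ X) = Quotient.mk'' x :=
  Quotient.sound' (MulAction.orbitRel_apply.2 (MulAction.mem_orbit x γ))

lemma extFun_mem (a : ↥(goodOrbits X ψ) → k') : extFun X ψ a ∈ eqvFun X ψ F := by
  intro γ x
  unfold extFun
  rw [mk_smul_eq γ x]
  by_cases hω : (Quotient.mk'' x : MulAction.orbitRel.Quotient Γ X) ∈ goodOrbits X ψ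
  · have hgood : IsGoodPt ψ (Quotient.mk'' x : MulAction.orbitRel.Quotient Γ X).out :=
      (mem_goodOrbits_iff_out ψ _).1 hω
    have h1 := moveOf_smul (Γ := Γ) (γ • x)
    rw [mk_smul_eq γ x] at h1
    have h2 := moveOf_smul (Γ := Γ) x
    have h3 : ((γ * moveOf (Γ := Γ) x)⁻¹ * moveOf (Γ := Γ) (γ • x)) •
        (Quotient.mk'' x : MulAction.orbitRel.Quotient Γ X).out =
        (Quotient.mk'' x : MulAction.orbitRel.Quotient Γ X).out := by
      rw [mul_smul, h1, mul_inv_rev, mul_smul, inv_smul_smul, inv_smul_eq_iff]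
      exact h2.symm
    have h4 := hgood _ h3
    rw [map_mul, map_inv, inv_mul_eq_one] at h4
    rw [← h4, map_mul, Units.val_mul, mul_assoc]
  · rw [extZero_of_not_mem ψ a hω, mul_zero, mul_zero, mul_zero]

variable (X) in
/-- The extension map. -/
noncomputable def extGood : (↥(goodOrbits X ψ) → k') → ↥(eqvFun X ψ F) :=
  fun a => ⟨extFun X ψ a, extFun_mem ψ F a⟩

lemma extGood_evGood (f : ↥(eqvFun X ψ F)) : extGood X ψ F (evGood X ψ F f) = f := by
  apply Subtype.ext
  funext x
  change extFun X ψ (evGood X ψ F f) x = f.1 x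
  unfold extFun
  by_cases hω : (Quotient.mk'' x : MulAction.orbitRel.Quotient Γ X) ∈ goodOrbits X ψ
  · have h0 : extZero X ψ (evGood X ψ F f) (Quotient.mk'' x) =
        f.1 (Quotient.mk'' x : MulAction.orbitRel.Quotient Γ X).out :=
      extZero_of_mem ψ (evGood X ψ F f) ⟨_, hω⟩
    rw [h0, ← f.2 (moveOf (Γ := Γ) x) _, moveOf_smul]
  · rw [extZero_of_not_mem ψ _ hω, mul_zero]
    exact (eqvFun_apply_eq_zero ψ f.2 (fun h => hω ((mk_mem_goodOrbits_iff ψ x).2 h))).symm

lemma evGood_extGood (a : ↥(goodOrbits X ψ) → k') : evGood X ψ F (extGood X ψ F a) = a := by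
  funext ω
  change extFun X ψ a ω.1.out = a ω
  unfold extFun
  have hgood : IsGoodPt ψ ω.1.out := (mem_goodOrbits_iff_out ψ ω.1).1 ω.2
  have h1 := moveOf_smul (Γ := Γ) ω.1.out
  rw [Quotient.out_eq' ω.1] at h1
  rw [Quotient.out_eq' ω.1, hgood _ h1, Units.val_one, one_mul, extZero_of_mem]

variable (X) in
/-- **Equivariant functions are the functions on the good orbits.** -/
noncomputable def eqvFunEquiv : ↥(eqvFun X ψ F) ≃ₗ[F] (↥(goodOrbits X ψ) → k') :=
  { evGood X ψ F with
    invFun := extGood X ψ F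
    left_inv := extGood_evGood ψ F
    right_inv := evGood_extGood ψ F }

/-- **The orbit count**: `dim_F {f : X → k' | f (γ • x) = ψ γ * f x} = #goodOrbits · dim_F k'`. -/
theorem finrank_eqvFun [Finite X] [FiniteDimensional F k'] :
    finrank F ↥(eqvFun X ψ F) = Nat.card ↥(goodOrbits X ψ) * finrank F k' := by
  classical
  have : Finite (MulAction.orbitRel.Quotient Γ X) := Quotient.finite _
  let _ : Fintype ↥(goodOrbits X ψ) := Fintype.ofFinite _
  rw [LinearEquiv.finrank_eq (eqvFunEquiv X ψ F), Module.finrank_pi_fintype F,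
    Finset.sum_const, Finset.card_univ, smul_eq_mul, Nat.card_eq_fintype_card]

end Core

end Fermat.Agent.TW.Euler.Base.Mackey0
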