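import Mathlib
import Fermat.Agent.TW.Euler.Base.Defs
import Fermat.Agent.TW.Euler.Base.Mackey0.Core

/-!
# PROGRAM G (S56), GW-Euler base case, node (MACKEY-0): invariants of `Coind_D^G k'(φ)`

`G` a finite group, `D Z ≤ G` subgroups, `k'` a finite extension of `𝔽_p`, `φ : D →* k'ˣ`,
`V = Representation.coindV D.subtype (chiRep φ)` with the `G`-action
`Representation.coind D.subtype (chiRep φ)` (= `baseRep` for `G = GQ ⧸ N`).

* `invEquiv`            : the `Z`-invariants of `V` are the `φ`-equivariant functions on the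
                          `D`-set `G ⧸ Z`;
* `finrank_invariants`  : `dim_{𝔽_p} V^Z = #{D-orbits on G ⧸ Z with φ trivial on the stabilisers} · d`,
                          `d = [k' : 𝔽_p]`  (**Mackey formula in degree 0**);
* `isGoodPt_mk_iff`     : the stabiliser of `gZ` in `D` is `D ∩ g Z g⁻¹`;
* `finrank_invariants_top` : `dim V^G = d` if `φ = 1` and `0` otherwise;
* `finrank_coindV`      : `dim V = [G : D] · d`;
* `finrank_ker_sub_one` : `dim ker (c - 1) = #{good D-orbits on G ⧸ ⟨c⟩} · d`.
-/

set_option autoImplicit false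

open Module

namespace Fermat.Agent.TW.Euler.Base.Mackey0

open Fermat.Agent.TW.Euler

variable (p : ℕ) [Fact p.Prime] {G : Type} [Group G] (D Z : Subgroup G)
  {k' : Type} [Field k'] [Algebra (ZMod p) k'] (φ : D →* k'ˣ)

/-- The `Z`-invariants of `Coind_D^G k'(φ)`. -/
noncomputable abbrev invOf : Submodule (ZMod p) (Representation.coindV D.subtype (chiRep (p := p) φ)) :=
  Representation.invariants
    (show Representation (ZMod p) ↥Z ↥(Representation.coindV D.subtype (chiRep (p := p) φ)) from
      (Representation.coind D.subtype (chiRep (p := p) φ)).comp Z.subtype)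

lemma mem_invOf_iff (f : Representation.coindV D.subtype (chiRep (p := p) φ)) :
    f ∈ invOf p D Z φ ↔ ∀ z ∈ Z, ∀ x : G, f.1 (x * z) = f.1 x := by
  constructor
  · intro h z hz x
    have h1 := h ⟨z, hz⟩
    exact congrFun (congrArg Subtype.val h1) x
  · intro h z
    apply Subtype.ext
    funext x
    exact h z.1 z.2 x

/-- The function on `G` attached to an equivariant function on `G ⧸ Z`. -/
noncomputable def ofEqv (g : ↥(eqvFun (G ⧸ Z) φ (ZMod p))) : ↥(invOf p D Z φ) :=
  ⟨⟨fun x => g.1 (x : G ⧸ Z), by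
      intro d x
      have h := g.2 d (x : G ⧸ Z)
      exact h⟩, by
    rw [mem_invOf_iff]
    intro z hz x
    change g.1 ((x * z : G) : G ⧸ Z) = g.1 (x : G ⧸ Z)
    rw [QuotientGroup.mk_mul_of_mem x hz]⟩

lemma ofEqv_apply (g : ↥(eqvFun (G ⧸ Z) φ (ZMod p))) (x : G) :
    (ofEqv p D Z φ g).1.1 x = g.1 (x : G ⧸ Z) := rfl

/-- `ofEqv` as a linear map. -/
noncomputable def ofEqvL : ↥(eqvFun (G ⧸ Z) φ (ZMod p)) →ₗ[ZMod p] ↥(invOf p D Z φ) where
  toFun := ofEqv p D Z φ
  map_add' _ _ := rfl
  map_smul' _ _ := rfl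

lemma ofEqvL_bijective : Function.Bijective (ofEqvL p D Z φ) := by
  constructor
  · intro g g' h
    apply Subtype.ext
    funext q
    induction q using QuotientGroup.induction_on with
    | H x =>
      have := congrFun (congrArg (fun f : ↥(invOf p D Z φ) => f.1.1) h) x
      exact this
  · intro f
    have hf := (mem_invOf_iff p D Z φ f.1).1 f.2
    refine ⟨⟨fun q => Quotient.liftOn' q f.1.1 (fun a b hab => ?_), ?_⟩, ?_⟩
    · have hab' : a⁻¹ * b ∈ Z := QuotientGroup.leftRel_apply.1 hab
      have := hf _ hab' a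
      rw [mul_inv_cancel_left] at this
      exact this.symm
    · intro d q
      induction q using QuotientGroup.induction_on with
      | H x => exact f.1.2 d x
    · apply Subtype.ext
      apply Subtype.ext
      funext x
      rfl

/-- **The `Z`-invariants of `Coind_D^G k'(φ)` are the `φ`-equivariant functions on `G ⧸ Z`.** -/
noncomputable def invEquiv : ↥(eqvFun (G ⧸ Z) φ (ZMod p)) ≃ₗ[ZMod p] ↥(invOf p D Z φ) :=
  LinearEquiv.ofBijective (ofEqvL p D Z φ) (ofEqvL_bijective p D Z φ)

/-- **(MACKEY-0)** `dim_{𝔽_p} (Coind_D^G k'(φ))^Z = #{good D-orbits on G ⧸ Z} · [k' : 𝔽_p]`. -/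
theorem finrank_invariants [Finite G] [Finite k'] :
    finrank (ZMod p) ↥(invOf p D Z φ) =
      Nat.card ↥(goodOrbits (G ⧸ Z) φ) * finrank (ZMod p) k' := by
  have : FiniteDimensional (ZMod p) k' := Module.Finite.of_finite
  rw [← LinearEquiv.finrank_eq (invEquiv p D Z φ), finrank_eqvFun]

/-- The stabiliser of `gZ` in `D` is `D ∩ g Z g⁻¹`. -/
lemma isGoodPt_mk_iff (g : G) :
    IsGoodPt φ (g : G ⧸ Z) ↔ ∀ d : D, g⁻¹ * (d : G) * g ∈ Z → φ d = 1 := by
  have key : ∀ d : D, d • (g : G ⧸ Z) = (g : G ⧸ Z) ↔ g⁻¹ * (d : G) * g ∈ Z := by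
    intro d
    change (((d : G) * g : G) : G ⧸ Z) = (g : G ⧸ Z) ↔ _
    rw [eq_comm, QuotientGroup.eq, ← mul_assoc]
  exact forall_congr' fun d => by rw [key d]

/-! ### `Z = ⊤`: the invariants -/

open Classical in
lemma card_goodOrbits_top :
    Nat.card ↥(goodOrbits (G ⧸ (⊤ : Subgroup G)) φ) = if φ = 1 then 1 else 0 := by
  have hsub : Subsingleton (G ⧸ (⊤ : Subgroup G)) := QuotientGroup.subsingleton_quotient_top
  have hsubQ : Subsingleton (MulAction.orbitRel.Quotient ↥D (G ⧸ (⊤ : Subgroup G))) :=
    ⟨fun a b => by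
      induction a using Quotient.inductionOn' with
      | h x =>
        induction b using Quotient.inductionOn' with
        | h y => rw [Subsingleton.elim x y]⟩
  have hgood : ∀ x : G ⧸ (⊤ : Subgroup G), IsGoodPt φ x ↔ φ = 1 := by
    intro x
    constructor
    · intro h
      ext d
      rw [h d (Subsingleton.elim _ _)]
      rfl
    · intro h d _
      rw [h]
      rfl
  split_ifs with hφ
  · have huniv : goodOrbits (G ⧸ (⊤ : Subgroup G)) φ = Set.univ := by
      ext ω
      simp only [Set.mem_univ, iff_true]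
      intro x _
      exact (hgood x).2 hφ
    rw [huniv, Nat.card_congr (Equiv.Set.univ _)]
    have hne : Nonempty (MulAction.orbitRel.Quotient ↥D (G ⧸ (⊤ : Subgroup G))) :=
      ⟨Quotient.mk'' ((1 : G) : G ⧸ (⊤ : Subgroup G))⟩
    exact Nat.card_unique
  · have hempty : goodOrbits (G ⧸ (⊤ : Subgroup G)) φ = ∅ := by
      ext ω
      simp only [Set.mem_empty_iff_false, iff_false]
      intro h
      exact hφ ((hgood ω.out).1 ((mem_goodOrbits_iff_out φ ω).1 h))
    rw [hempty]
    simp

open Classical in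
/-- `dim_{𝔽_p} (Coind_D^G k'(φ))^G = [k' : 𝔽_p]` if `φ = 1`, and `0` otherwise. -/
theorem finrank_invariants_top [Finite G] [Finite k'] :
    finrank (ZMod p) ↥(invOf p D ⊤ φ) = if φ = 1 then finrank (ZMod p) k' else 0 := by
  rw [finrank_invariants, card_goodOrbits_top]
  split_ifs <;> simp

/-- The `⊤`-invariants are the invariants. -/
lemma invOf_top :
    invOf p D ⊤ φ = (Representation.coind D.subtype (chiRep (p := p) φ)).invariants := by
  ext f
  constructor
  · intro h g
    exact h ⟨g, Subgroup.mem_top g⟩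
  · intro h z
    exact h z.1

/-! ### `Z = ⊥`: the dimension -/

/-- The underlying space of `Coind_D^G k'(φ)` is the space of `φ`-equivariant functions on the
`D`-set `G`. -/
lemma coindV_eq_eqvFun :
    Representation.coindV D.subtype (chiRep (p := p) φ) = eqvFun G φ (ZMod p) := by
  ext f
  exact Iff.rfl

lemma isGoodPt_self (x : G) : IsGoodPt φ x := by
  intro d hd
  have h1 : (d : G) * x = x := hd
  have h2 : (d : G) = 1 := mul_eq_right.1 h1
  have h3 : d = 1 := Subtype.ext h2
  rw [h3, map_one]

lemma goodOrbits_self : goodOrbits G φ = Set.univ := by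
  ext ω
  simp only [Set.mem_univ, iff_true]
  intro x _
  exact isGoodPt_self D φ x

/-- `dim_{𝔽_p} Coind_D^G k'(φ) = [G : D] · [k' : 𝔽_p]`. -/
theorem finrank_coindV [Finite G] [Finite k'] :
    finrank (ZMod p) ↥(Representation.coindV D.subtype (chiRep (p := p) φ)) =
      D.index * finrank (ZMod p) k' := by
  have : FiniteDimensional (ZMod p) k' := Module.Finite.of_finite
  rw [coindV_eq_eqvFun, finrank_eqvFun, goodOrbits_self, Nat.card_congr (Equiv.Set.univ _)]
  congr 1
  exact Nat.card_congr (QuotientGroup.quotientRightRelEquivQuotientLeftRel D)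

/-! ### `Z = ⟨c⟩`: the kernel of `c - 1` -/

/-- The kernel of `c - 1` is the space of `⟨c⟩`-invariants. -/
lemma ker_sub_one_eq (c : G) :
    LinearMap.ker (Representation.coind D.subtype (chiRep (p := p) φ) c - 1) =
      invOf p D (Subgroup.zpowers c) φ := by
  ext f
  rw [LinearMap.mem_ker, LinearMap.sub_apply, Module.End.one_apply, sub_eq_zero, mem_invOf_iff]
  constructor
  · intro h z hz x
    -- the set of `g` with `f (x * g) = f x` for all `x` is a subgroup containing `c`
    let S : Subgroup G :=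
      { carrier := {g | ∀ x : G, f.1 (x * g) = f.1 x}
        mul_mem' := by
          intro a b ha hb x
          rw [← mul_assoc, hb, ha]
        one_mem' := by
          intro x
          rw [mul_one]
        inv_mem' := by
          intro a ha x
          have := ha (x * a⁻¹)
          rw [inv_mul_cancel_right] at this
          exact this.symm }
    have hc : c ∈ S := fun x => congrFun (congrArg Subtype.val h) x
    exact (Subgroup.zpowers_le.2 hc) hz x
  · intro h
    apply Subtype.ext
    funext x
    exact h c (Subgroup.mem_zpowers c) x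

/-- `dim_{𝔽_p} ker (c - 1 | Coind_D^G k'(φ)) = #{good D-orbits on G ⧸ ⟨c⟩} · [k' : 𝔽_p]`. -/
theorem finrank_ker_sub_one [Finite G] [Finite k'] (c : G) :
    finrank (ZMod p)
        ↥(LinearMap.ker (Representation.coind D.subtype (chiRep (p := p) φ) c - 1)) =
      Nat.card ↥(goodOrbits (G ⧸ Subgroup.zpowers c) φ) * finrank (ZMod p) k' := by
  rw [ker_sub_one_eq, finrank_invariants]

end Fermat.Agent.TW.Euler.Base.Mackey0
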