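import Mathlib
import Fermat.Agent.TW.Euler.Base.Mackey0.Coind
import Fermat.Agent.CFT.LC.LowDegree

/-!
# PROGRAM G (S56), GW-Euler base case, node (MACKEY-0): the numbers `h⁰`, `h⁰_ℓ`, `h_∞`, `dim`
of the module `X_φ = baseMod N D φ`

`Ḡ = GQ ⧸ N`, `D ≤ Ḡ`, `φ : D →* k'ˣ`, `d = [k' : 𝔽_p]`, `X_φ = baseMod N D φ`
(`TW/Euler/Base/Defs.lean`).  With `goodOrbits (Ḡ ⧸ Z) φ` = the set of `D`-orbits on `Ḡ ⧸ Z` on whose
stabilisers `D ∩ g Z g⁻¹` the character `φ` is trivial (`Mackey0.isGoodPt_mk_iff`):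

* `finrank_baseMod`       : `dim X_φ = [Ḡ : D] · d`;
* `hG_zero_baseMod`       : `h⁰(G_T, X_φ) = d` if `φ = 1`, `0` otherwise;
* `hInf_baseMod`          : `hInf X_φ = #goodOrbits (Ḡ ⧸ ⟨c̄⟩) φ · d`, `c̄` the image of the complex
                            conjugation;
* `finrank_H0_res_baseMod`: for every `r : H →* GQ` (e.g. `primeLocalToGlobal ℓ`) and every level
                            structure on `H` making `Res_r X_φ` smooth,
                            `dim H⁰(H, Res_r X_φ) = #goodOrbits (Ḡ ⧸ Z_r) φ · d`, `Z_r` the image of `H`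
                            in `Ḡ`.
-/

set_option autoImplicit false

open CategoryTheory Module ExtCitation

namespace Fermat.Agent.TW.Euler.Base.Mackey0

open Fermat.Agent.CFT Fermat.Agent.S55 Fermat.Agent.TW.Euler HExt

local notation "GQ" => (AlgebraicClosure ℚ ≃ₐ[ℚ] AlgebraicClosure ℚ)

variable {p : ℕ} [Fact p.Prime] (N : Subgroup GQ) [N.Normal] (D : Subgroup (GQ ⧸ N))
  {k' : Type} [Field k'] [Algebra (ZMod p) k'] (φ : D →* k'ˣ)

/-- The invariants of `Res_r X_φ` for `r : H →* GQ` are the invariants of `Coind_D^Ḡ k'(φ)` under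
the image of `H` in `Ḡ`. -/
noncomputable def invResEquiv {H : Type} [Group H] (r : H →* GQ) :
    ↥((Rep.res r (baseMod (p := p) N D φ)).ρ.invariants) ≃ₗ[ZMod p]
      ↥(invOf p D ((QuotientGroup.mk' N).comp r).range φ) where
  toFun v := ⟨v.1, fun z => by
    obtain ⟨h, hh⟩ := z.2
    have h1 := v.2 h
    have h2 : (Representation.coind D.subtype (chiRep (p := p) φ)) (z : GQ ⧸ N) v.1 = v.1 := by
      rw [← hh]
      exact h1
    exact h2⟩
  invFun w := ⟨w.1, fun h => w.2 ⟨((QuotientGroup.mk' N).comp r) h, ⟨h, rfl⟩⟩⟩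
  map_add' _ _ := rfl
  map_smul' _ _ := rfl
  left_inv _ := rfl
  right_inv _ := rfl

/-- `dim H⁰(H, Res_r X_φ) = #{good D-orbits on Ḡ ⧸ Z_r} · [k' : 𝔽_p]`, `Z_r` the image of `H`. -/
theorem finrank_H0_res_baseMod [Finite (GQ ⧸ N)] [Finite k'] {H : Type} [Group H] (r : H →* GQ)
    {LH : LevelStructure H} (hloc : IsSmooth LH (Rep.res r (baseMod (p := p) N D φ))) :
    finrank (ZMod p) ((LC.cx hloc).H 0) =
      Nat.card ↥(goodOrbits ((GQ ⧸ N) ⧸ ((QuotientGroup.mk' N).comp r).range) φ) *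
        finrank (ZMod p) k' := by
  rw [LinearEquiv.finrank_eq (LC.h0Equiv hloc), LinearEquiv.finrank_eq (invResEquiv N D φ r),
    finrank_invariants]

/-- `dim X_φ = [Ḡ : D] · [k' : 𝔽_p]`. -/
theorem finrank_baseMod [Finite (GQ ⧸ N)] [Finite k'] :
    finrank (ZMod p) (baseMod (p := p) N D φ) = D.index * finrank (ZMod p) k' :=
  finrank_coindV p D φ

/-- The invariants of `X_φ` are the invariants of `Coind_D^Ḡ k'(φ)`. -/
noncomputable def invGlobEquiv :
    ↥((baseMod (p := p) N D φ).ρ.invariants) ≃ₗ[ZMod p] ↥(invOf p D ⊤ φ) where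
  toFun v := ⟨v.1, fun z => by
    obtain ⟨g, hg⟩ := QuotientGroup.mk_surjective (z : GQ ⧸ N)
    have h1 := v.2 g
    have h2 : (Representation.coind D.subtype (chiRep (p := p) φ)) (z : GQ ⧸ N) v.1 = v.1 := by
      rw [← hg]
      exact h1
    exact h2⟩
  invFun w := ⟨w.1, fun g => w.2 ⟨QuotientGroup.mk g, Subgroup.mem_top _⟩⟩
  map_add' _ _ := rfl
  map_smul' _ _ := rfl
  left_inv _ := rfl
  right_inv _ := rfl

open Classical in
/-- `h⁰(G_T, X_φ) = [k' : 𝔽_p]` if `φ = 1`, and `0` otherwise. -/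
theorem hG_zero_baseMod [Finite (GQ ⧸ N)] [Finite k'] {T : Finset Nat.Primes}
    (hN : (globalLevel T).IsLevel N) :
    hG (isSmooth_baseMod (p := p) N D hN φ) 0 = if φ = 1 then finrank (ZMod p) k' else 0 := by
  unfold hG
  rw [LinearEquiv.finrank_eq (LC.h0Equiv _), LinearEquiv.finrank_eq (invGlobEquiv N D φ),
    finrank_invariants_top]

/-- `hInf X_φ = #{good D-orbits on Ḡ ⧸ ⟨c̄⟩} · [k' : 𝔽_p]`, `c̄` the image of the complex
conjugation in `Ḡ`. -/
theorem hInf_baseMod [Finite (GQ ⧸ N)] [Finite k'] :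
    hInf (baseMod (p := p) N D φ) =
      Nat.card ↥(goodOrbits ((GQ ⧸ N) ⧸
        Subgroup.zpowers (QuotientGroup.mk complexConjugation : GQ ⧸ N)) φ) *
        finrank (ZMod p) k' := by
  unfold hInf
  exact finrank_ker_sub_one p D φ (QuotientGroup.mk complexConjugation : GQ ⧸ N)

end Fermat.Agent.TW.Euler.Base.Mackey0
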